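import Mathlib
import Fermat.Agent.FF2.SF.OfFamily
import Fermat.Agent.FF2.Rat.GoodSection
import Fermat.Agent.FF2.Rat.RationalBasis
import Fermat.Agent.FF2.Rat24.Pinf
import Fermat.Agent.FF2.HChord.Inputs
import Fermat.Agent.FF2.Base.RatCoeff

/-!
# MOONSHOT S19, node N5 (GEO-INST), spare engine / second reader (helper20)

The `SF.GeoData` of the instance: `S = redSetupBar hℓN hA hr` at `A = padicPlace ℓ`,
`W = LamZ ℓ ζ`, `j = lamZToP ℓ ζ`, `Z = placesOverInfty`, lattice basis = a `G_ℚ`-fixed reduced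
basis of `L(m · ∞)`, disc coordinates = helper21's rational disc coordinates at the points of a
finite set `s` of residue points whose stabilisers contain `GamZ ℓ ζ`.
-/

set_option autoImplicit false
set_option linter.style.haveILetI false
set_option linter.unusedSectionVars false

noncomputable section
namespace Fermat.Agent.FF2.RatD

open AlgebraicCurve ModularCurve IsLocalRing Fermat.Agent.Red Fermat.Agent.X0 Fermat.Agent.Val
  Fermat.Agent.Val.GaloisModL Fermat.Agent.Good.CuspBound Fermat.Agent.FF2.Disc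
  Fermat.Agent.FF2.Base Fermat.Agent.FF2.Rat Fermat.Agent.FF2.Rat24 Fermat.Agent.FF2.SF
  Fermat.Agent.FF2.HChord GaloisRep Module

set_option synthInstance.maxHeartbeats 400000
set_option maxHeartbeats 1000000

local notation "GQ" => (AlgebraicClosure ℚ ≃ₐ[ℚ] AlgebraicClosure ℚ)
local notation "aG" => arithmeticGalois (modularFunctionFieldFull _)

variable {N : ℕ} [NeZero N] {ℓ : ℕ} [hℓ : Fact ℓ.Prime] (hℓN : ¬ ℓ ∣ N)
  (hA : (padicPlace ℓ).LiesOverPrime ℓ) (h : ReductionInputsModL (padicPlace ℓ) N)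

/-- The divisor `m · ∞` is supported in the poles of `j`. -/
theorem single_pinf_apply_eq_zero (m : ℤ) (P : Place Kb (Fb N))
    (hP : P ∉ placesOverInfty Kb (jBar N)) :
    (Finsupp.single (pinf N) m : Divisor Kb (Fb N)) P = 0 := by
  classical
  rw [Finsupp.single_apply, if_neg]
  rintro rfl
  exact hP (pinf_mem_placesOverInfty N)

include hℓN hA in
/-- **(GEO-INST)**: the geometric data of the chords at the instance, over `Λ_ζ`. -/
theorem exists_geoData (ζ : AlgebraicClosure ℚ)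
    (lift : Place (ResidueField (padicPlace ℓ))
        (modularFunctionFieldFullC (ResidueField (padicPlace ℓ)) N) → Place Kb (Fb N))
    (hlift : ∀ Q, placeReductionModL h (lift Q) = Q)
    (s : Finset (Place (ResidueField (padicPlace ℓ))
        (modularFunctionFieldFullC (ResidueField (padicPlace ℓ)) N)))
    (hne : s.Nonempty)
    (hgood : ∀ Q ∈ s, ∃ (c : padicPlace ℓ) (C : DiscCoord
        (redSetupBar hℓN hA (isPlaceReductionModL_placeReductionModL h))
        (placesOverInfty Kb (jBar N))),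
      C.P₀ = lift Q ∧ C.t = jBar N - algebraMap Kb (Fb N) (c : Kb) ∧
      ∀ σ ∈ placeStab N (padicPlace ℓ) Q,
        arithmeticGalois (modularFunctionFieldFull N) σ • C.P₀ = C.P₀ ∧
        arithmeticGalois (modularFunctionFieldFull N) σ • C.t = C.t)
    (hζ : ∀ σ ∈ GamZ ℓ ζ, ∀ Q ∈ s, σ ∈ placeStab N (padicPlace ℓ) Q) (m : ℤ) :
    haveI := (riemannPkg_bar N).finite_L (Finsupp.single (pinf N) m : Divisor Kb (Fb N))
    ∃ G : GeoData (redSetupBar hℓN hA (isPlaceReductionModL_placeReductionModL h))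
        (lamZToP ℓ ζ) (placesOverInfty Kb (jBar N))
        (Fin (finrank Kb (riemannRochSpace (Finsupp.single (pinf N) m : Divisor Kb (Fb N))))),
      G.rel = ↑s ∧
      (∀ Q ∈ s, (G.Cof Q).P₀ = lift Q ∧
        (∃ c : padicPlace ℓ, (G.Cof Q).t = jBar N - algebraMap Kb (Fb N) (c : Kb)) ∧
        ∀ σ ∈ placeStab N (padicPlace ℓ) Q,
          arithmeticGalois (modularFunctionFieldFull N) σ • (G.Cof Q).P₀ = (G.Cof Q).P₀ ∧
          arithmeticGalois (modularFunctionFieldFull N) σ • (G.Cof Q).t = (G.Cof Q).t) ∧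
      (∀ i, G.e i ∈ riemannRochSpace (Finsupp.single (pinf N) m : Divisor Kb (Fb N))) ∧
      (∀ i, ∀ σ : GQ, arithmeticGalois (modularFunctionFieldFull N) σ • G.e i = G.e i) ∧
      (∀ i, G.e i ∈ (redSetupBar hℓN hA (isPlaceReductionModL_placeReductionModL h)).O) ∧
      (LinearIndependent (ResidueField (padicPlace ℓ)) fun i =>
        (redSetupBar hℓN hA (isPlaceReductionModL_placeReductionModL h)).resF (G.e i)) ∧
      LinearIndependent Kb G.e ∧
      Submodule.span Kb (Set.range G.e)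
        = riemannRochSpace (Finsupp.single (pinf N) m : Divisor Kb (Fb N)) := by
  haveI := (riemannPkg_bar N).finite_L (Finsupp.single (pinf N) m : Divisor Kb (Fb N))
  obtain ⟨z, hzL, hzfix, hzO, hzres, hzind, hzspan⟩ :=
    exists_fixed_reducedBasis_riemannRoch hℓN hA (isPlaceReductionModL_placeReductionModL h)
      (Finsupp.single (pinf N) m : Divisor Kb (Fb N))
      (fun σ => arithmeticGalois_smul_single_pinf N σ m)
  choose c C hC0 hCt hCfix using hgood
  haveI : Nonempty {Q // Q ∈ s} := ⟨⟨hne.choose, hne.choose_spec⟩⟩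
  have he : ∀ i, z i ∈ (redSetupBar hℓN hA (isPlaceReductionModL_placeReductionModL h)).chart
      (placesOverInfty Kb (jBar N)) := fun i =>
    mem_chart_of_mem_riemannRochSpace (fun P hP => single_pinf_apply_eq_zero m P hP)
      (hzL i) (hzO i)
  have hCr : ∀ a : {Q // Q ∈ s},
      (redSetupBar hℓN hA (isPlaceReductionModL_placeReductionModL h)).r (C a.1 a.2).P₀ = a.1 :=
    fun a => by rw [hC0 a.1 a.2]; exact hlift a.1
  have hrat : ∀ (a : {Q // Q ∈ s}) i n, ∃ w : LamZ ℓ ζ,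
      ((lamZToP ℓ ζ w : padicPlace ℓ) : Kb) = (C a.1 a.2).coeff (z i) n := fun a i n =>
    exists_lamZ_eq_coeff_of_mem_chart (C a.1 a.2)
      (fun σ hσ => hCfix a.1 a.2 σ (hζ σ hσ a.1 a.2)) (he i) (fun σ _ => hzfix i σ) n
  refine ⟨GeoData.ofFamily z he (fun a : {Q // Q ∈ s} => a.1) (fun a => C a.1 a.2) hCr hrat,
    ?_, ?_, hzL, hzfix, hzO, hzres, hzind, hzspan⟩
  · rw [GeoData.ofFamily_rel]
    ext Q
    constructor
    · rintro ⟨a, rfl⟩
      exact a.2
    · intro hQ
      exact ⟨⟨Q, hQ⟩, rfl⟩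
  · intro Q hQ
    obtain ⟨a, ha, hCa⟩ := GeoData.exists_Cof_eq z he (fun a : {Q // Q ∈ s} => a.1)
      (fun a => C a.1 a.2) hCr hrat (Q' := Q) ⟨⟨Q, hQ⟩, rfl⟩
    have ha' : a = ⟨Q, hQ⟩ := Subtype.ext ha
    subst ha'
    rw [hCa]
    exact ⟨hC0 Q hQ, ⟨c Q hQ, hCt Q hQ⟩, hCfix Q hQ⟩

include hℓN hA in
/-- **(GEO-INST)**, fed VERBATIM with the output `(Bad, lift, hlift, _, hprop)` of helper21's
`Rat.exists_good_section`: all the data of the rational disc coordinates are exported. -/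
theorem exists_geoData_of_good_section (ζ : AlgebraicClosure ℚ)
    (Bad : Finset (Place (ResidueField (padicPlace ℓ))
        (modularFunctionFieldFullC (ResidueField (padicPlace ℓ)) N)))
    (lift : Place (ResidueField (padicPlace ℓ))
        (modularFunctionFieldFullC (ResidueField (padicPlace ℓ)) N) → Place Kb (Fb N))
    (hlift : ∀ Q, placeReductionModL h (lift Q) = Q)
    (hprop : ∀ Q, Q ∉ Bad →
      ∃ (a : ResidueField (padicPlace ℓ)) (c : padicPlace ℓ) (C : DiscCoord
          (redSetupBar hℓN hA (isPlaceReductionModL_placeReductionModL h))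
          (placesOverInfty Kb (jBar N))),
        C.P₀ = lift Q ∧
        C.t = jBar N - algebraMap Kb (Fb N) (c : Kb) ∧
        (c : Kb) ∈ fixedRing (padicPlace ℓ) (placeStab N (padicPlace ℓ) Q) ∧
        residue (padicPlace ℓ) c = a ∧
        (redSetupBar hℓN hA (isPlaceReductionModL_placeReductionModL h)).resF C.t =
          jC N (padicPlace ℓ) - algebraMap (ResidueField (padicPlace ℓ)) _ a ∧
        ∀ σ ∈ placeStab N (padicPlace ℓ) Q,
          arithmeticGalois (modularFunctionFieldFull N) σ • C.P₀ = C.P₀ ∧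
          arithmeticGalois (modularFunctionFieldFull N) σ • C.t = C.t)
    (s : Finset (Place (ResidueField (padicPlace ℓ))
        (modularFunctionFieldFullC (ResidueField (padicPlace ℓ)) N)))
    (hne : s.Nonempty) (hs : ∀ Q ∈ s, Q ∉ Bad)
    (hζ : ∀ σ ∈ GamZ ℓ ζ, ∀ Q ∈ s, σ ∈ placeStab N (padicPlace ℓ) Q) (m : ℤ) :
    haveI := (riemannPkg_bar N).finite_L (Finsupp.single (pinf N) m : Divisor Kb (Fb N))
    ∃ G : GeoData (redSetupBar hℓN hA (isPlaceReductionModL_placeReductionModL h))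
        (lamZToP ℓ ζ) (placesOverInfty Kb (jBar N))
        (Fin (finrank Kb (riemannRochSpace (Finsupp.single (pinf N) m : Divisor Kb (Fb N))))),
      G.rel = ↑s ∧
      (∀ Q ∈ s, (G.Cof Q).P₀ = lift Q ∧
        (∃ (a : ResidueField (padicPlace ℓ)) (c : padicPlace ℓ),
          (G.Cof Q).t = jBar N - algebraMap Kb (Fb N) (c : Kb) ∧
          (c : Kb) ∈ fixedRing (padicPlace ℓ) (placeStab N (padicPlace ℓ) Q) ∧
          residue (padicPlace ℓ) c = a ∧
          (redSetupBar hℓN hA (isPlaceReductionModL_placeReductionModL h)).resF (G.Cof Q).t =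
            jC N (padicPlace ℓ) - algebraMap (ResidueField (padicPlace ℓ)) _ a) ∧
        ∀ σ ∈ placeStab N (padicPlace ℓ) Q,
          arithmeticGalois (modularFunctionFieldFull N) σ • (G.Cof Q).P₀ = (G.Cof Q).P₀ ∧
          arithmeticGalois (modularFunctionFieldFull N) σ • (G.Cof Q).t = (G.Cof Q).t) ∧
      (∀ i, G.e i ∈ riemannRochSpace (Finsupp.single (pinf N) m : Divisor Kb (Fb N))) ∧
      (∀ i, ∀ σ : GQ, arithmeticGalois (modularFunctionFieldFull N) σ • G.e i = G.e i) ∧
      (∀ i, G.e i ∈ (redSetupBar hℓN hA (isPlaceReductionModL_placeReductionModL h)).O) ∧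
      (LinearIndependent (ResidueField (padicPlace ℓ)) fun i =>
        (redSetupBar hℓN hA (isPlaceReductionModL_placeReductionModL h)).resF (G.e i)) ∧
      LinearIndependent Kb G.e ∧
      Submodule.span Kb (Set.range G.e)
        = riemannRochSpace (Finsupp.single (pinf N) m : Divisor Kb (Fb N)) := by
  haveI := (riemannPkg_bar N).finite_L (Finsupp.single (pinf N) m : Divisor Kb (Fb N))
  obtain ⟨z, hzL, hzfix, hzO, hzres, hzind, hzspan⟩ :=
    exists_fixed_reducedBasis_riemannRoch hℓN hA (isPlaceReductionModL_placeReductionModL h)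
      (Finsupp.single (pinf N) m : Divisor Kb (Fb N))
      (fun σ => arithmeticGalois_smul_single_pinf N σ m)
  choose a c C hC0 hCt hcfix hca hCres hCfix using fun Q (hQ : Q ∈ s) => hprop Q (hs Q hQ)
  haveI : Nonempty {Q // Q ∈ s} := ⟨⟨hne.choose, hne.choose_spec⟩⟩
  have he : ∀ i, z i ∈ (redSetupBar hℓN hA (isPlaceReductionModL_placeReductionModL h)).chart
      (placesOverInfty Kb (jBar N)) := fun i =>
    mem_chart_of_mem_riemannRochSpace (fun P hP => single_pinf_apply_eq_zero m P hP)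
      (hzL i) (hzO i)
  have hCr : ∀ b : {Q // Q ∈ s},
      (redSetupBar hℓN hA (isPlaceReductionModL_placeReductionModL h)).r (C b.1 b.2).P₀ = b.1 :=
    fun b => by rw [hC0 b.1 b.2]; exact hlift b.1
  have hrat : ∀ (b : {Q // Q ∈ s}) i n, ∃ w : LamZ ℓ ζ,
      ((lamZToP ℓ ζ w : padicPlace ℓ) : Kb) = (C b.1 b.2).coeff (z i) n := fun b i n =>
    exists_lamZ_eq_coeff_of_mem_chart (C b.1 b.2)
      (fun σ hσ => hCfix b.1 b.2 σ (hζ σ hσ b.1 b.2)) (he i) (fun σ _ => hzfix i σ) n
  refine ⟨GeoData.ofFamily z he (fun b : {Q // Q ∈ s} => b.1) (fun b => C b.1 b.2) hCr hrat,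
    ?_, ?_, hzL, hzfix, hzO, hzres, hzind, hzspan⟩
  · rw [GeoData.ofFamily_rel]
    ext Q
    constructor
    · rintro ⟨b, rfl⟩
      exact b.2
    · intro hQ
      exact ⟨⟨Q, hQ⟩, rfl⟩
  · intro Q hQ
    obtain ⟨b, hb, hCb⟩ := GeoData.exists_Cof_eq z he (fun b : {Q // Q ∈ s} => b.1)
      (fun b => C b.1 b.2) hCr hrat (Q' := Q) ⟨⟨Q, hQ⟩, rfl⟩
    have hb' : b = ⟨Q, hQ⟩ := Subtype.ext hb
    subst hb'
    rw [hCb]
    exact ⟨hC0 Q hQ, ⟨a Q hQ, c Q hQ, hCt Q hQ, hcfix Q hQ, hca Q hQ, hCres Q hQ⟩, hCfix Q hQ⟩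

/-- The coordinates of the points of a residue disc are non-units of `A` (instance form of
`Disc.DiscCoord.discEquiv`, for the finite-level ideal `J`). -/
theorem evalAt_t_mem_and_not_isUnit {A : ValuationSubring (AlgebraicClosure ℚ)} {k Ft : Type*}
    [Field k] [Field Ft] [Algebra k Ft] {π : A →+* k}
    {S : RedSetup (F := Fb N) (Ft := Ft) A π} {Z : Set (Place Kb (Fb N))}
    (C : DiscCoord S Z) (hF : RiemannPkg Kb (Fb N)) {P : Place Kb (Fb N)} (hP : P ∈ C.disc) :
    ∃ x : A, (x : Kb) = evalAt P C.t ∧ π x = 0 ∧ ¬ IsUnit x := by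
  refine ⟨⟨evalAt P C.t, C.evalAt_mem_of_mem_disc hF hP C.t_mem_chart_Zplus⟩, rfl,
    C.pi_evalAt_t hF hP, fun hu => ?_⟩
  have h0 := C.pi_evalAt_t hF hP
  have h1 := hu.map π
  rw [h0] at h1
  exact not_isUnit_zero h1

end Fermat.Agent.FF2.RatD
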